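/-
Program C (S55), sub-package LOC of C9b, leaf (LOC-D) (helper96): the orbit decomposition of
`𝔽_p[Gal(ℚ̄/ℚ) ⧸ Γ]` restricted to the local group `G_q`.

Generic part (`G` a group, `Γ ≤ G`, `r : Gq →* G`, `k` a field): for `g : G` and a subgroup
`H ≤ Gq` which is the stabiliser of `gΓ` (`h ∈ H ↔ g⁻¹ r(h) g ∈ Γ`):
* `projHom`  : `Res_r k[G ⧸ Γ] ⟶ k[Gq ⧸ H]`, `δ_{r(h) g Γ} ↦ δ_{hH}`, `0` on the other orbits;
* `permCoeff_projHom` : the coefficient at `H` of `π_g v` is the coefficient of `v` at `gΓ`;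
* `hom_eq_sum` : `m = ∑_{g ∈ R} m(δ_{gΓ}) • (π_g ≫ aug_χ)` for orbit representatives `R` and every
  morphism `m : Res_r k[G ⧸ Γ] ⟶ k(χ)`;
* `exists_orbit_reps` : orbit representatives exist when `G ⧸ Γ` is finite.
Concrete part: `orbitDecompStatement : H66.OrbitDecompStatement p q S`.
-/
import Mathlib
import Fermat.Agent.S55.H66.LocSpec
import Fermat.Agent.S55.H26.LocalInjM1

set_option autoImplicit false

open CategoryTheory

noncomputable section

namespace Fermat.Agent.S55.H96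

open Fermat.Agent.S55.H49 Fermat.Agent.S55.H26

section Generic

variable {G Gq : Type} [Group G] [Group Gq] {k : Type} [Field k]
variable (r : Gq →* G) (Γ : Subgroup G)

/-- `H` is the stabiliser in `Gq` of the coset `gΓ`. -/
def IsStab (g : G) (H : Subgroup Gq) : Prop := ∀ h : Gq, h ∈ H ↔ g⁻¹ * r h * g ∈ Γ

variable {r Γ}

theorem IsStab.mk_eq_iff {g : G} {H : Subgroup Gq} (hH : IsStab r Γ g H) (h h' : Gq) :
    ((r h * g : G) : G ⧸ Γ) = ((r h' * g : G) : G ⧸ Γ) ↔ ((h : Gq) : Gq ⧸ H) = (h' : Gq ⧸ H) := by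
  rw [QuotientGroup.eq, QuotientGroup.eq, hH]
  have e : (r h * g)⁻¹ * (r h' * g) = g⁻¹ * r (h⁻¹ * h') * g := by
    rw [map_mul, map_inv]; group
  rw [e]

variable (r Γ) in
/-- The function on the basis defining the projection to the orbit of `gΓ`. -/
def projFun (k : Type) [Field k] (g : G) (H : Subgroup Gq) (x : G ⧸ Γ) : permRep k H :=
  open Classical in
  if hx : ∃ h : Gq, x = ((r h * g : G) : G ⧸ Γ) then
    MonoidAlgebra.single ((hx.choose : Gq) : Gq ⧸ H) 1
  else 0

theorem projFun_mk {g : G} {H : Subgroup Gq} (hH : IsStab r Γ g H) (h : Gq) :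
    projFun r Γ k g H ((r h * g : G) : G ⧸ Γ) = MonoidAlgebra.single ((h : Gq) : Gq ⧸ H) 1 := by
  have hx : ∃ h' : Gq, ((r h * g : G) : G ⧸ Γ) = ((r h' * g : G) : G ⧸ Γ) := ⟨h, rfl⟩
  unfold projFun
  rw [dif_pos hx]
  have := (hH.mk_eq_iff h hx.choose).mp hx.choose_spec
  rw [this]

theorem projFun_of_not {g : G} {H : Subgroup Gq} {x : G ⧸ Γ}
    (hx : ¬ ∃ h : Gq, x = ((r h * g : G) : G ⧸ Γ)) : projFun r Γ k g H x = 0 := by
  unfold projFun
  rw [dif_neg hx]

theorem projFun_smul {g : G} {H : Subgroup Gq} (hH : IsStab r Γ g H) (h' : Gq) (x : G ⧸ Γ) :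
    projFun r Γ k g H (r h' • x) = (permRep k H).ρ h' (projFun r Γ k g H x) := by
  by_cases hx : ∃ h : Gq, x = ((r h * g : G) : G ⧸ Γ)
  · obtain ⟨h, rfl⟩ := hx
    have e : r h' • ((r h * g : G) : G ⧸ Γ) = ((r (h' * h) * g : G) : G ⧸ Γ) := by
      rw [map_mul, mul_assoc]; rfl
    rw [e, projFun_mk hH, projFun_mk hH]
    simp
  · have hx' : ¬ ∃ h : Gq, r h' • x = ((r h * g : G) : G ⧸ Γ) := by
      rintro ⟨h, hh⟩
      apply hx
      refine ⟨h'⁻¹ * h, ?_⟩
      have : x = (r h')⁻¹ • (r h' • x) := (inv_smul_smul _ _).symm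
      rw [this, hh, map_mul, map_inv, mul_assoc]; rfl
    rw [projFun_of_not hx, projFun_of_not hx', map_zero]

/-- The projection `Res_r k[G ⧸ Γ] ⟶ k[Gq ⧸ H]` onto the orbit of `gΓ`. -/
def projHom {g : G} {H : Subgroup Gq} (hH : IsStab r Γ g H) :
    Rep.res r (permRep k Γ) ⟶ permRep k H :=
  ConcreteCategory.ofHom (C := Rep.{0} k Gq) (X := Rep.res r (permRep k Γ)) (Y := permRep k H)
    ⟨permLift (projFun r Γ k g H), fun h' => by
      refine MonoidAlgebra.lhom_ext' fun x => LinearMap.ext fun c => ?_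
      have h1 : (Rep.res r (permRep k Γ)).ρ h' (MonoidAlgebra.single x c) =
          MonoidAlgebra.single (r h' • x) c := by
        simp
      show permLift (projFun r Γ k g H) ((Rep.res r (permRep k Γ)).ρ h' (MonoidAlgebra.single x c)) =
        (permRep k H).ρ h' (permLift (projFun r Γ k g H) (MonoidAlgebra.single x c))
      rw [h1, permLift_single, permLift_single, projFun_smul hH, map_smul]⟩

theorem projHom_single {g : G} {H : Subgroup Gq} (hH : IsStab r Γ g H) (x : G ⧸ Γ) (c : k) :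
    (projHom (k := k) hH).hom (MonoidAlgebra.single x c) = c • projFun r Γ k g H x :=
  permLift_single _ x c

open Classical in
theorem permCoeff_single {U : Subgroup G} (a x : G ⧸ U) (c : k) :
    permCoeff U (MonoidAlgebra.single a c : permRep k U) x = if a = x then c else 0 := by
  unfold permCoeff
  simp [Finsupp.single_apply]

theorem permCoeff_zero' {U : Subgroup G} (x : G ⧸ U) :
    permCoeff U (0 : permRep k U) x = 0 := by
  unfold permCoeff
  simp

/-- `gΓ` lies in its own orbit, with `h ∈ H`. -/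
theorem IsStab.mk_eq_self_iff {g : G} {H : Subgroup Gq} (hH : IsStab r Γ g H) (h : Gq) :
    ((r h * g : G) : G ⧸ Γ) = ((g : G) : G ⧸ Γ) ↔ h ∈ H := by
  have h1 := hH.mk_eq_iff h 1
  rw [map_one, one_mul] at h1
  rw [h1, QuotientGroup.eq, mul_one, inv_mem_iff]

/-- The coefficient of `π_g v` at the coset `H` is the coefficient of `v` at `gΓ`. -/
theorem permCoeff_projHom {g : G} {H : Subgroup Gq} (hH : IsStab r Γ g H)
    (v : Rep.res r (permRep k Γ)) :
    permCoeff H ((projHom (k := k) hH).hom v) ((1 : Gq) : Gq ⧸ H) =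
      permCoeff Γ (show permRep k Γ from v) ((g : G) : G ⧸ Γ) := by
  classical
  induction v using MonoidAlgebra.induction_linear with
  | zero =>
    show permCoeff H ((projHom (k := k) hH).hom 0) _ = permCoeff Γ (0 : permRep k Γ) _
    rw [map_zero]
    exact (permCoeff_zero' (k := k) _).trans (permCoeff_zero' (k := k) _).symm
  | add v w hv hw =>
    show permCoeff H ((projHom (k := k) hH).hom (v + w)) _ = permCoeff Γ (v + w : permRep k Γ) _
    rw [map_add]
    unfold permCoeff at hv hw ⊢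
    rw [map_add, map_add, Finsupp.add_apply, Finsupp.add_apply, hv, hw]
  | single x c =>
    show permCoeff H ((projHom (k := k) hH).hom (MonoidAlgebra.single x c)) _ =
      permCoeff Γ (MonoidAlgebra.single x c : permRep k Γ) _
    rw [projHom_single, permCoeff_single]
    by_cases hx : ∃ h : Gq, x = ((r h * g : G) : G ⧸ Γ)
    · obtain ⟨h, rfl⟩ := hx
      rw [projFun_mk hH]
      have e : permCoeff H (c • (MonoidAlgebra.single ((h : Gq) : Gq ⧸ H) 1 : permRep k H))
          ((1 : Gq) : Gq ⧸ H) = if ((h : Gq) : Gq ⧸ H) = ((1 : Gq) : Gq ⧸ H) then c else 0 := by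
        rw [← permCoeff_single]
        congr 1
        rw [MonoidAlgebra.smul_single, smul_eq_mul, mul_one]
      rw [e]
      have h2 : ((h : Gq) : Gq ⧸ H) = ((1 : Gq) : Gq ⧸ H) ↔ h ∈ H := by
        rw [QuotientGroup.eq, mul_one, inv_mem_iff]
      by_cases hh : h ∈ H
      · rw [if_pos (h2.mpr hh), if_pos ((hH.mk_eq_self_iff h).mpr hh)]
      · rw [if_neg (fun h' => hh (h2.mp h')), if_neg (fun h' => hh ((hH.mk_eq_self_iff h).mp h'))]
    · rw [projFun_of_not hx, smul_zero]
      have hne : x ≠ ((g : G) : G ⧸ Γ) := by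
        rintro rfl
        exact hx ⟨1, by rw [map_one, one_mul]⟩
      rw [if_neg hne]
      exact permCoeff_zero' (k := k) _

/-- **Orbit decomposition of a morphism to `k(χ)`.** -/
theorem hom_apply_eq_sum (χ : Gq →* kˣ) (H : G → Subgroup Gq) (hH : ∀ g, IsStab r Γ g (H g))
    (hχ : ∀ g, ∀ s ∈ H g, χ s = 1) (R : Finset G)
    (hcov : ∀ x : G, ∃ g ∈ R, ∃ h : Gq, (x : G ⧸ Γ) = ((r h * g : G) : G ⧸ Γ))
    (huniq : ∀ g ∈ R, ∀ g' ∈ R, (∃ h : Gq, (g' : G ⧸ Γ) = ((r h * g : G) : G ⧸ Γ)) → g = g')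
    (m : Rep.res r (permRep k Γ) ⟶ mu χ) (v : Rep.res r (permRep k Γ)) :
    m.hom v = ∑ g ∈ R, (m.hom (MonoidAlgebra.single ((g : G) : G ⧸ Γ) 1) : k) •
      (augChar χ (H g) (hχ g)).hom ((projHom (k := k) (hH g)).hom v) := by
  classical
  induction v using MonoidAlgebra.induction_linear with
  | zero =>
    show m.hom 0 = _
    rw [map_zero]
    symm
    refine Finset.sum_eq_zero fun g _ => ?_
    rw [map_zero, map_zero, smul_zero]
  | add v w hv hw =>
    show m.hom (v + w) = _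
    rw [map_add, hv, hw, ← Finset.sum_add_distrib]
    refine Finset.sum_congr rfl fun g _ => ?_
    rw [map_add, map_add, smul_add]
  | single x c =>
    induction x using QuotientGroup.induction_on with
    | H a =>
      obtain ⟨g₀, hg₀, h₀, hx⟩ := hcov a
      rw [Finset.sum_eq_single g₀]
      · rw [hx, projHom_single, projFun_mk (hH g₀), map_smul]
        have e1 : (augChar χ (H g₀) (hχ g₀)).hom
            (MonoidAlgebra.single ((h₀ : Gq) : Gq ⧸ H g₀) 1) = (χ h₀ : k) := by
          rw [augChar, permHom_single, charQuot_mk, one_smul]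
        rw [e1]
        have e2 : (MonoidAlgebra.single ((r h₀ * g₀ : G) : G ⧸ Γ) c :
            Rep.res r (permRep k Γ)) =
            c • (Rep.res r (permRep k Γ)).ρ h₀ (MonoidAlgebra.single ((g₀ : G) : G ⧸ Γ) 1) := by
          have : (Rep.res r (permRep k Γ)).ρ h₀ (MonoidAlgebra.single ((g₀ : G) : G ⧸ Γ) 1) =
              MonoidAlgebra.single (r h₀ • ((g₀ : G) : G ⧸ Γ)) 1 := by simp
          rw [this, MonoidAlgebra.smul_single, smul_eq_mul, mul_one]
          rfl
        rw [e2, map_smul, Rep.hom_comm_apply, mu_ρ_apply]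
        show c • ((χ h₀ : k) * _) = _ • (c • (χ h₀ : k))
        simp only [smul_eq_mul]
        ring
      · intro g hg hne
        have hx' : ¬ ∃ h : Gq, ((a : G) : G ⧸ Γ) = ((r h * g : G) : G ⧸ Γ) := by
          rintro ⟨h, hh⟩
          apply hne
          refine (huniq g₀ hg₀ g hg ⟨h⁻¹ * h₀, ?_⟩).symm
          have h3 : ((r h * g : G) : G ⧸ Γ) = ((r h₀ * g₀ : G) : G ⧸ Γ) := by rw [← hh, hx]
          have h4 : r h⁻¹ • ((r h * g : G) : G ⧸ Γ) = r h⁻¹ • ((r h₀ * g₀ : G) : G ⧸ Γ) := by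
            rw [h3]
          have h5 : r h⁻¹ • ((r h * g : G) : G ⧸ Γ) = ((g : G) : G ⧸ Γ) := by
            show (((r h⁻¹ * (r h * g) : G)) : G ⧸ Γ) = _
            rw [map_inv, inv_mul_cancel_left]
          rw [h5] at h4
          rw [h4, map_mul, mul_assoc]
          rfl
        rw [projHom_single, projFun_of_not hx', smul_zero, map_zero, smul_zero]
      · intro hg₀'
        exact absurd hg₀ hg₀'

/-- The Shapiro restriction of the push-forward of a cocycle along a morphism to `k[Gq ⧸ H]`. -/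
theorem shapiroRes_cycMap (D : LevelDatum Gq) (H : Subgroup Gq) {A : Rep.{0} k Gq}
    (ψ : A ⟶ permRep k H) (w : cyc (lcComplex D A) 2) (h₁ h₂ : H) :
    shapiroRes D H (cycMap (lcMapCoeff D ψ) 2 w) (h₁, h₂) =
      permCoeff H (ψ.hom (lcVal w ![(h₁ : Gq), (h₂ : Gq)])) ((1 : Gq) : Gq ⧸ H) := rfl

/-- The same decomposition, as an identity of morphisms. -/
theorem hom_eq_sum (χ : Gq →* kˣ) (H : G → Subgroup Gq) (hH : ∀ g, IsStab r Γ g (H g))
    (hχ : ∀ g, ∀ s ∈ H g, χ s = 1) (R : Finset G)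
    (hcov : ∀ x : G, ∃ g ∈ R, ∃ h : Gq, (x : G ⧸ Γ) = ((r h * g : G) : G ⧸ Γ))
    (huniq : ∀ g ∈ R, ∀ g' ∈ R, (∃ h : Gq, (g' : G ⧸ Γ) = ((r h * g : G) : G ⧸ Γ)) → g = g')
    (m : Rep.res r (permRep k Γ) ⟶ mu χ) :
    m = ∑ g ∈ R, (m.hom (MonoidAlgebra.single ((g : G) : G ⧸ Γ) 1) : k) •
      (projHom (k := k) (hH g) ≫ augChar χ (H g) (hχ g)) := by
  classical
  have key : ∀ (T : Finset G) (c : G → k) (v : Rep.res r (permRep k Γ)),
      (∑ g ∈ T, c g • (projHom (k := k) (hH g) ≫ augChar χ (H g) (hχ g))).hom v =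
        ∑ g ∈ T, c g • (augChar χ (H g) (hχ g)).hom ((projHom (k := k) (hH g)).hom v) := by
    intro T c v
    induction T using Finset.induction_on with
    | empty => rfl
    | insert a T ha ih =>
      rw [Finset.sum_insert ha, Finset.sum_insert ha, ← ih]
      rfl
  refine Rep.hom_ext (Representation.IntertwiningMap.ext (LinearMap.ext fun v => ?_))
  exact (hom_apply_eq_sum χ H hH hχ R hcov huniq m v).trans (key R _ v).symm

omit [Group G] in
/-- `hlcMap` of a finite linear combination of morphisms. -/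
theorem hlcMap_sum_smul (D : LevelDatum Gq) {A B : Rep.{0} k Gq} (T : Finset G) (c : G → k)
    (φ : G → (A ⟶ B)) (n : ℕ) (x : Hlc D A n) :
    hlcMap D (∑ g ∈ T, c g • φ g) n x = ∑ g ∈ T, c g • hlcMap D (φ g) n x := by
  classical
  induction T using Finset.induction_on with
  | empty =>
    rw [Finset.sum_empty, Finset.sum_empty, hlcMap_zero]
    rfl
  | insert a T ha ih =>
    rw [Finset.sum_insert ha, Finset.sum_insert ha, hlcMap_add, hlcMap_smul, ← ih]
    rfl

variable (r Γ) in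
/-- The orbit relation of `Gq` on `G` modulo `Γ`. -/
def orbSetoid : Setoid G where
  r x y := ∃ h : Gq, (y : G ⧸ Γ) = ((r h * x : G) : G ⧸ Γ)
  iseqv :=
    { refl := fun x => ⟨1, by rw [map_one, one_mul]⟩
      symm := by
        rintro x y ⟨h, hh⟩
        refine ⟨h⁻¹, ?_⟩
        have e : ((r h⁻¹ * y : G) : G ⧸ Γ) = r h⁻¹ • ((y : G) : G ⧸ Γ) := rfl
        rw [e, hh]
        show _ = (((r h⁻¹ * (r h * x) : G)) : G ⧸ Γ)
        rw [map_inv, inv_mul_cancel_left]
      trans := by
        rintro x y z ⟨h, hh⟩ ⟨h', hh'⟩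
        refine ⟨h' * h, ?_⟩
        have e : ((r h' * y : G) : G ⧸ Γ) = r h' • ((y : G) : G ⧸ Γ) := rfl
        rw [hh', e, hh, map_mul, mul_assoc]
        rfl }

variable (r Γ) in
/-- Representatives of the orbits of `Gq` on the finite set `G ⧸ Γ`. -/
theorem exists_orbit_reps [Finite (G ⧸ Γ)] :
    ∃ R : Finset G,
      (∀ x : G, ∃ g ∈ R, ∃ h : Gq, (x : G ⧸ Γ) = ((r h * g : G) : G ⧸ Γ)) ∧
      (∀ g ∈ R, ∀ g' ∈ R, (∃ h : Gq, (g' : G ⧸ Γ) = ((r h * g : G) : G ⧸ Γ)) → g = g') := by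
  classical
  let _ : Fintype (G ⧸ Γ) := Fintype.ofFinite _
  let s : Setoid G := orbSetoid r Γ
  let rep : G → G := fun x => (Quotient.mk s x).out
  have hrep : ∀ x, s.r (rep x) x := fun x => Quotient.mk_out (s := s) x
  have hrep' : ∀ x y, s.r x y → rep x = rep y := fun x y hxy => by
    show (Quotient.mk s x).out = (Quotient.mk s y).out
    rw [Quotient.sound (s := s) hxy]
  refine ⟨Finset.univ.image (fun c : G ⧸ Γ => rep c.out), ?_, ?_⟩
  · intro x
    refine ⟨rep ((x : G) : G ⧸ Γ).out, Finset.mem_image_of_mem _ (Finset.mem_univ _), ?_⟩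
    obtain ⟨h, hh⟩ := hrep ((x : G) : G ⧸ Γ).out
    refine ⟨h, ?_⟩
    rw [← hh, QuotientGroup.out_eq']
  · intro g hg g' hg' hgg'
    obtain ⟨c, -, rfl⟩ := Finset.mem_image.mp hg
    obtain ⟨c', -, rfl⟩ := Finset.mem_image.mp hg'
    have h1 : s.r c.out (rep c.out) := s.symm (hrep c.out)
    have h2 : s.r (rep c.out) (rep c'.out) := hgg'
    have h3 : s.r (rep c'.out) c'.out := hrep c'.out
    exact hrep' _ _ (s.trans h1 (s.trans h2 h3))

end Generic

/-! ### The concrete statement -/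

section Concrete

open Fermat.Agent.S55.H66

local notation "Qb" => AlgebraicClosure ℚ

variable (p : ℕ) [Fact p.Prime] (q : ℕ) [Fact q.Prime]

/-- The stabiliser of `gΓ` in the local group is `Gal(Ω/baseAt g)`. -/
theorem isStab_baseAt (L : IntermediateField ℚ Qb) (K : IntermediateField L Qb) (g : GQ) :
    IsStab (localGaloisToGlobal q) L.fixingSubgroup g (baseAt L K q g).fixingSubgroup := by
  intro h
  refine ⟨conj_mem_fixingSubgroup L K q g h, fun hh => ?_⟩
  rw [IntermediateField.mem_fixingSubgroup_iff] at hh ⊢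
  intro y hy
  induction hy using IntermediateField.adjoin_induction with
  | mem y hy =>
    obtain ⟨x, rfl⟩ := hy
    have h1 := hh (x : Qb) x.2
    have h2 : localGaloisToGlobal q h (g (x : Qb)) = g (x : Qb) := by
      have h3 : g ((g⁻¹ * localGaloisToGlobal q h * g) (x : Qb)) = g (x : Qb) := by rw [h1]
      have h4 : g ((g⁻¹ * localGaloisToGlobal q h * g) (x : Qb)) =
          localGaloisToGlobal q h (g (x : Qb)) := g.apply_symm_apply _
      rw [← h4, h3]
    show h (padicEmbedding q (g (x : Qb))) = padicEmbedding q (g (x : Qb))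
    rw [← padicEmbedding_localGaloisToGlobal, h2]
  | algebraMap y => exact h.commutes y
  | add x y _ _ hx hy => rw [map_add, hx, hy]
  | inv x _ hx => rw [map_inv₀, hx]
  | mul x y _ _ hx hy => rw [map_mul, hx, hy]

/-- **Leaf (LOC-D)**: the orbit decomposition. -/
theorem orbitDecompStatement (S : Finset Nat.Primes) : OrbitDecompStatement p q S := by
  intro L _ K hχ z m
  have halg : Algebra.IsAlgebraic ℚ Qb := AlgebraicClosure.isAlgebraic ℚ
  have hcl : IsAlgClosure ℚ Qb := ⟨inferInstance, inferInstance⟩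
  have hgal : IsGalois ℚ Qb := IsAlgClosure.isGalois ℚ Qb
  have hfin : Finite (GQ ⧸ L.fixingSubgroup) :=
    Subgroup.quotient_finite_of_isOpen L.fixingSubgroup (IntermediateField.fixingSubgroup_isOpen L)
  obtain ⟨R, hcov, huniq⟩ := exists_orbit_reps (localGaloisToGlobal q) L.fixingSubgroup
  refine ⟨R, fun g => cycMap (lcMapCoeff (Dloc q)
    (projHom (k := ZMod p) (isStab_baseAt q L K g))) 2
      (cycMap (lcRes (locHom S (localGaloisToGlobal q))
        (permRep (ZMod p) L.fixingSubgroup)) 2 z), hcov, huniq, ?_, ?_⟩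
  · intro g h₁ h₂
    have e : ((locHom S (localGaloisToGlobal q)).φ ∘ ![(h₁ : GalQ q), (h₂ : GalQ q)]) =
        ![localGaloisToGlobal q (h₁ : GalQ q), localGaloisToGlobal q (h₂ : GalQ q)] := by
      funext i
      fin_cases i <;> rfl
    have h1 := shapiroRes_cycMap (Dloc q) (baseAt L K q g).fixingSubgroup
      (projHom (k := ZMod p) (isStab_baseAt q L K g))
      (cycMap (lcRes (locHom S (localGaloisToGlobal q))
        (permRep (ZMod p) L.fixingSubgroup)) 2 z) h₁ h₂
    refine h1.trans ?_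
    have h2 := permCoeff_projHom (k := ZMod p) (isStab_baseAt q L K g)
      (lcVal (cycMap (lcRes (locHom S (localGaloisToGlobal q))
        (permRep (ZMod p) L.fixingSubgroup)) 2 z) ![(h₁ : GalQ q), (h₂ : GalQ q)])
    refine h2.trans ?_
    have h3 : lcVal (cycMap (lcRes (locHom S (localGaloisToGlobal q))
        (permRep (ZMod p) L.fixingSubgroup)) 2 z) ![(h₁ : GalQ q), (h₂ : GalQ q)] =
        lcVal z ![localGaloisToGlobal q (h₁ : GalQ q), localGaloisToGlobal q (h₂ : GalQ q)] := by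
      rw [← e]
      rfl
    unfold locCoeff
    exact congrArg (fun v => permCoeff L.fixingSubgroup v ((g : GQ) : GQ ⧸ L.fixingSubgroup)) h3
  · have hm := hom_eq_sum (chiLoc p q) (fun g => (baseAt L K q g).fixingSubgroup)
      (fun g => isStab_baseAt q L K g) hχ R hcov huniq m
    conv_lhs => rw [hm]
    rw [hlcMap_sum_smul]
    refine Finset.sum_congr rfl fun g _ => ?_
    rw [hlcMap_comp_apply]
    congr 2
    exact homologyMap_cls _ 2 _

end Concrete

end Fermat.Agent.S55.H96
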