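/-
Program C (S55), package C8 / B4, leaf (J-SURJ), part (3) (helper96): the projector of the finite
ideles `J_K` onto the factor at ONE finite place `v` of `k`, as an endomorphism of the
representation `H88.ideleRep k K` of `Gal(K/k)`.

In the embedding model an idele is a family `x_q ∈ (K ⊗ ℚ_q)ˣ` of `G_q`-equivariant functions on
the embeddings `τ : K → Ω_q`; the embedding `τ` lies above `v` when the place of `τ ∘ (k → K)`
is `v` (`IsAt`).  `E_v x` keeps the values of `x` at the embeddings above `v` and replaces the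
others by `1`.

* `idProj k K v : ideleRep k K ⟶ ideleRep k K`;
* `ideleEvalHom_idProjHom_of_isAt / _of_not_isAt` : `e_τ' (E_v x) = e_τ' x` for `τ'` above `v`,
  `= 1` otherwise;
* `idProj_comp_ideleToLoc` (P2), `idProj_comp_ideleToLoc_of_ne` (P1) and their consequences for
  `H29.jinv`: `jinv v ∘ H²(E_v) = jinv v`, `jinv v' ∘ H²(E_v) = 0` for `v' ≠ v`;
* `ideleToLoc_smul_idProj` (h1), `idProj_eq_zero` (h2).
-/
import Fermat.Agent.S55.H29.C8Idele

set_option autoImplicit false

open CategoryTheory groupCohomology Rep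

noncomputable section

namespace Fermat.Agent.S55.H96

open Fermat.Agent.S55.H88 Fermat.Agent.S55.H29

attribute [local instance] factOfPrimes

section IsAt

variable (k K : Type) [Field k] [Field K] [Algebra k K]

/-- The embedding `τ` of `K` at the prime `q` lies above the finite place `v` of `k`. -/
def IsAt (v : FinPlace k) (q : Nat.Primes) (τ : K →+* PadicAlgCl (q : ℕ)) : Prop :=
  (⟨q, placeOf (q : ℕ) (τ.comp (algebraMap k K))⟩ : FinPlace k) = v

variable {k K}

theorem IsAt.fst_eq {v : FinPlace k} {q : Nat.Primes} {τ : K →+* PadicAlgCl (q : ℕ)}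
    (h : IsAt k K v q τ) : q = v.1 :=
  congrArg Sigma.fst h

theorem isAt_mk_iff {q : Nat.Primes} {w : PlaceAbove (q : ℕ) k} {τ : K →+* PadicAlgCl (q : ℕ)} :
    IsAt k K ⟨q, w⟩ q τ ↔ placeOf (q : ℕ) (τ.comp (algebraMap k K)) = w := by
  unfold IsAt
  constructor
  · intro h
    exact eq_of_heq (Sigma.mk.inj_iff.mp h).2
  · intro h
    rw [h]

theorem placeOf_comp_left {q : Nat.Primes}
    (g : PadicAlgCl (q : ℕ) ≃ₐ[ℚ_[(q : ℕ)]] PadicAlgCl (q : ℕ)) (τ : k →+* PadicAlgCl (q : ℕ)) :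
    placeOf (q : ℕ) ((g : PadicAlgCl (q : ℕ) →+* PadicAlgCl (q : ℕ)).comp τ)
      = placeOf (q : ℕ) τ :=
  (Quotient.sound (s := placeSetoid (q : ℕ) k) ⟨g, rfl⟩).symm

theorem isAt_comp_left (v : FinPlace k) {q : Nat.Primes}
    (g : PadicAlgCl (q : ℕ) ≃ₐ[ℚ_[(q : ℕ)]] PadicAlgCl (q : ℕ)) (τ : K →+* PadicAlgCl (q : ℕ)) :
    IsAt k K v q ((g : PadicAlgCl (q : ℕ) →+* PadicAlgCl (q : ℕ)).comp τ) ↔ IsAt k K v q τ := by
  unfold IsAt
  rw [RingHom.comp_assoc, placeOf_comp_left]

theorem isAt_comp_right (v : FinPlace k) {q : Nat.Primes} (σ : K ≃ₐ[k] K)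
    (τ : K →+* PadicAlgCl (q : ℕ)) :
    IsAt k K v q (τ.comp ((σ : K ≃+* K) : K →+* K)) ↔ IsAt k K v q τ := by
  have h : (τ.comp ((σ : K ≃+* K) : K →+* K)).comp (algebraMap k K)
      = τ.comp (algebraMap k K) :=
    RingHom.ext fun y => congrArg τ (σ.commutes y)
  unfold IsAt
  rw [h]

end IsAt

section Proj

variable (k K : Type) [Field k] [Field K] [Algebra k K]

open Classical in
/-- The projector on the semi-local algebra at `q` (multiplicative): keep the values at the
embeddings above `v`, replace the others by `1`. -/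
def slProj (v : FinPlace k) (q : Nat.Primes) :
    semiLocal (q : ℕ) K →* semiLocal (q : ℕ) K where
  toFun f := ⟨fun τ => if IsAt k K v q τ
      then (f : (K →+* PadicAlgCl (q : ℕ)) → PadicAlgCl (q : ℕ)) τ else 1, fun g τ => by
    show (if IsAt k K v q ((g : PadicAlgCl (q : ℕ) →+* PadicAlgCl (q : ℕ)).comp τ) then
        (f : (K →+* PadicAlgCl (q : ℕ)) → PadicAlgCl (q : ℕ))
          ((g : PadicAlgCl (q : ℕ) →+* PadicAlgCl (q : ℕ)).comp τ) else 1)
      = g (if IsAt k K v q τ then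
          (f : (K →+* PadicAlgCl (q : ℕ)) → PadicAlgCl (q : ℕ)) τ else 1)
    by_cases h : IsAt k K v q τ
    · rw [if_pos ((isAt_comp_left v g τ).mpr h), if_pos h]
      exact f.2 g τ
    · rw [if_neg (fun h' => h ((isAt_comp_left v g τ).mp h')), if_neg h, map_one]⟩
  map_one' := Subtype.ext (funext fun τ => by
    show (if IsAt k K v q τ then (1 : PadicAlgCl (q : ℕ)) else 1) = 1
    rw [ite_self])
  map_mul' f f' := Subtype.ext (funext fun τ => by
    show (if IsAt k K v q τ then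
        (f : (K →+* PadicAlgCl (q : ℕ)) → PadicAlgCl (q : ℕ)) τ *
          (f' : (K →+* PadicAlgCl (q : ℕ)) → PadicAlgCl (q : ℕ)) τ else 1)
      = (if IsAt k K v q τ then (f : (K →+* PadicAlgCl (q : ℕ)) → PadicAlgCl (q : ℕ)) τ else 1) *
        (if IsAt k K v q τ then (f' : (K →+* PadicAlgCl (q : ℕ)) → PadicAlgCl (q : ℕ)) τ else 1)
    by_cases h : IsAt k K v q τ
    · rw [if_pos h, if_pos h, if_pos h]
    · rw [if_neg h, if_neg h, if_neg h, mul_one])

open Classical in
theorem slProj_apply (v : FinPlace k) (q : Nat.Primes) (f : semiLocal (q : ℕ) K)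
    (τ : K →+* PadicAlgCl (q : ℕ)) :
    (slProj k K v q f : (K →+* PadicAlgCl (q : ℕ)) → PadicAlgCl (q : ℕ)) τ
      = if IsAt k K v q τ then (f : (K →+* PadicAlgCl (q : ℕ)) → PadicAlgCl (q : ℕ)) τ else 1 :=
  rfl

theorem slProj_apply_of_isAt (v : FinPlace k) (q : Nat.Primes) (f : semiLocal (q : ℕ) K)
    {τ : K →+* PadicAlgCl (q : ℕ)} (h : IsAt k K v q τ) :
    (slProj k K v q f : (K →+* PadicAlgCl (q : ℕ)) → PadicAlgCl (q : ℕ)) τ
      = (f : (K →+* PadicAlgCl (q : ℕ)) → PadicAlgCl (q : ℕ)) τ := by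
  rw [slProj_apply, if_pos h]

theorem slProj_apply_of_not_isAt (v : FinPlace k) (q : Nat.Primes) (f : semiLocal (q : ℕ) K)
    {τ : K →+* PadicAlgCl (q : ℕ)} (h : ¬ IsAt k K v q τ) :
    (slProj k K v q f : (K →+* PadicAlgCl (q : ℕ)) → PadicAlgCl (q : ℕ)) τ = 1 := by
  rw [slProj_apply, if_neg h]

/-- The projector commutes with the action of `Gal(K/k)`. -/
theorem slProj_smul (v : FinPlace k) (q : Nat.Primes) (σ : K ≃ₐ[k] K)
    (f : semiLocal (q : ℕ) K) : slProj k K v q (σ • f) = σ • slProj k K v q f := by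
  refine Subtype.ext (funext fun τ => ?_)
  show (slProj k K v q (σ • f) : (K →+* PadicAlgCl (q : ℕ)) → PadicAlgCl (q : ℕ)) τ
    = (slProj k K v q f : (K →+* PadicAlgCl (q : ℕ)) → PadicAlgCl (q : ℕ))
        (τ.comp ((σ : K ≃+* K) : K →+* K))
  by_cases h : IsAt k K v q τ
  · rw [slProj_apply_of_isAt k K v q _ h,
      slProj_apply_of_isAt k K v q _ ((isAt_comp_right v σ τ).mpr h)]
    rfl
  · rw [slProj_apply_of_not_isAt k K v q _ h,
      slProj_apply_of_not_isAt k K v q _ (fun h' => h ((isAt_comp_right v σ τ).mp h'))]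

/-- The projector preserves the local units. -/
theorem slProj_mem_semiLocalUnits (v : FinPlace k) (q : Nat.Primes) {u : (semiLocal (q : ℕ) K)ˣ}
    (hu : u ∈ semiLocalUnits (q : ℕ) K) :
    Units.map (slProj k K v q) u ∈ semiLocalUnits (q : ℕ) K := by
  intro τ
  show ‖(slProj k K v q (u : semiLocal (q : ℕ) K) :
    (K →+* PadicAlgCl (q : ℕ)) → PadicAlgCl (q : ℕ)) τ‖ = 1
  by_cases h : IsAt k K v q τ
  · rw [slProj_apply_of_isAt k K v q _ h]
    exact hu τ
  · rw [slProj_apply_of_not_isAt k K v q _ h, norm_one]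

/-- The projector of the ideles onto the factor at the finite place `v` of `k`, as a group
homomorphism. -/
def idProjHom (v : FinPlace k) : ideleGroup K →* ideleGroup K where
  toFun x := ⟨fun q => Units.map (slProj k K v q)
      ((x : ∀ q : Nat.Primes, (semiLocal (q : ℕ) K)ˣ) q),
    Set.Finite.subset x.2 fun q hq h => hq (slProj_mem_semiLocalUnits k K v q h)⟩
  map_one' := Subtype.ext (funext fun _ => map_one _)
  map_mul' _ _ := Subtype.ext (funext fun _ => map_mul _ _ _)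

theorem idProjHom_apply (v : FinPlace k) (x : ideleGroup K) (q : Nat.Primes) :
    ((idProjHom k K v x : ideleGroup K) : ∀ q : Nat.Primes, (semiLocal (q : ℕ) K)ˣ) q
      = Units.map (slProj k K v q) ((x : ∀ q : Nat.Primes, (semiLocal (q : ℕ) K)ˣ) q) := rfl

/-- The idele projector commutes with the action of `Gal(K/k)`. -/
theorem idProjHom_smul (v : FinPlace k) (σ : K ≃ₐ[k] K) (x : ideleGroup K) :
    idProjHom k K v (σ • x) = σ • idProjHom k K v x :=
  Subtype.ext (funext fun q => Units.ext (slProj_smul k K v q σ _))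

/-- **The projector `E_v`** of the ideles onto the factor at the finite place `v` of `k`, as an
endomorphism of the representation `J_K` of `Gal(K/k)`. -/
def idProj (v : FinPlace k) : ideleRep k K ⟶ ideleRep k K :=
  Rep.ofHom ⟨(MonoidHom.toAdditive (idProjHom k K v)).toIntLinearMap, fun σ =>
    LinearMap.ext fun x => congrArg Additive.ofMul
      (idProjHom_smul k K v σ (Additive.toMul (α := ideleGroup K) x))⟩

theorem idProj_hom_apply (v : FinPlace k) (x : ideleRep k K) :
    (idProj k K v).hom x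
      = Additive.ofMul (idProjHom k K v (Additive.toMul (α := ideleGroup K) x)) := rfl

end Proj

section Eval

variable (k K : Type) [Field k] [Field K] [Algebra k K] [Normal k K]

/-- The chosen embedding of `K` above `v` lies above `v`. -/
theorem isAt_ext (v : FinPlace k) : IsAt k K v v.1 (v.ext K) := by
  unfold IsAt
  rw [FinPlace.ext_comp]
  obtain ⟨q, w⟩ := v
  have h : placeOf (q : ℕ) (FinPlace.emb (⟨q, w⟩ : FinPlace k)) = w := Quotient.out_eq w
  rw [h]

/-- The chosen embedding above another place does not lie above `v`. -/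
theorem not_isAt_ext {v v' : FinPlace k} (h : v' ≠ v) : ¬ IsAt k K v v'.1 (v'.ext K) :=
  fun h' => h ((isAt_ext k K v').symm.trans h')

omit [Normal k K] in
/-- Evaluation at an embedding above `v` does not see the projector. -/
theorem ideleEvalHom_idProjHom_of_isAt (v : FinPlace k) (q : Nat.Primes)
    (τ' : K →+* PadicAlgCl (q : ℕ)) (h : IsAt k K v q τ') (x : ideleGroup K) :
    ideleEvalHom k q τ' (idProjHom k K v x) = ideleEvalHom k q τ' x :=
  Units.ext (Subtype.ext (slProj_apply_of_isAt k K v q _ h))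

omit [Normal k K] in
/-- Evaluation at an embedding not above `v` kills the image of the projector. -/
theorem ideleEvalHom_idProjHom_of_not_isAt (v : FinPlace k) (q : Nat.Primes)
    (τ' : K →+* PadicAlgCl (q : ℕ)) (h : ¬ IsAt k K v q τ') (x : ideleGroup K) :
    ideleEvalHom k q τ' (idProjHom k K v x) = 1 :=
  Units.ext (Subtype.ext (slProj_apply_of_not_isAt k K v q _ h))

theorem ideleToLoc_hom_apply (q : Nat.Primes) (τ' : K →+* PadicAlgCl (q : ℕ))
    (x : ideleRep k K) :
    (ideleToLoc k q τ').hom x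
      = Additive.ofMul (ideleEvalHom k q τ' (Additive.toMul (α := ideleGroup K) x)) := rfl

/-- **(P2)** `e_τ' ∘ E_v = e_τ'` for `τ'` above `v`. -/
theorem idProj_comp_ideleToLoc (v : FinPlace k) (q : Nat.Primes)
    (τ' : K →+* PadicAlgCl (q : ℕ)) (h : IsAt k K v q τ') :
    (Rep.resFunctor (locGalToGlobal (q : ℕ) k τ')).map (idProj k K v) ≫ ideleToLoc k q τ'
      = ideleToLoc k q τ' := by
  apply Rep.hom_ext
  apply Representation.IntertwiningMap.ext
  refine LinearMap.ext fun x => ?_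
  exact congrArg Additive.ofMul
    (ideleEvalHom_idProjHom_of_isAt k K v q τ' h (Additive.toMul (α := ideleGroup K) x))

/-- **(P1)** `e_τ' ∘ E_v = 0` for `τ'` not above `v`. -/
theorem idProj_comp_ideleToLoc_of_not (v : FinPlace k) (q : Nat.Primes)
    (τ' : K →+* PadicAlgCl (q : ℕ)) (h : ¬ IsAt k K v q τ') :
    (Rep.resFunctor (locGalToGlobal (q : ℕ) k τ')).map (idProj k K v) ≫ ideleToLoc k q τ'
      = 0 := by
  apply Rep.hom_ext
  apply Representation.IntertwiningMap.ext
  refine LinearMap.ext fun x => ?_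
  exact congrArg Additive.ofMul
    (ideleEvalHom_idProjHom_of_not_isAt k K v q τ' h (Additive.toMul (α := ideleGroup K) x))

/-- `H²(e_τ') ∘ H²(E_v) = H²(e_τ')` for `τ'` above `v`. -/
theorem map_idProj_map_ideleToLoc (v : FinPlace k) (q : Nat.Primes)
    (τ' : K →+* PadicAlgCl (q : ℕ)) (h : IsAt k K v q τ') (n : ℕ) :
    groupCohomology.map (A := ideleRep k K) (MonoidHom.id (K ≃ₐ[k] K)) (idProj k K v) n ≫
        groupCohomology.map (locGalToGlobal (q : ℕ) k τ') (ideleToLoc k q τ') n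
      = groupCohomology.map (locGalToGlobal (q : ℕ) k τ') (ideleToLoc k q τ') n := by
  rw [← groupCohomology.map_comp]
  exact groupCohomology.map_congr (MonoidHom.id_comp _)
    (congrArg (fun f => f.hom.toLinearMap) (idProj_comp_ideleToLoc k K v q τ' h)) n

/-- `H²(e_τ') ∘ H²(E_v) = 0` for `τ'` not above `v`. -/
theorem map_idProj_map_ideleToLoc_of_not (v : FinPlace k) (q : Nat.Primes)
    (τ' : K →+* PadicAlgCl (q : ℕ)) (h : ¬ IsAt k K v q τ') (n : ℕ) :
    groupCohomology.map (A := ideleRep k K) (MonoidHom.id (K ≃ₐ[k] K)) (idProj k K v) n ≫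
        groupCohomology.map (locGalToGlobal (q : ℕ) k τ') (ideleToLoc k q τ') n = 0 := by
  rw [← groupCohomology.map_comp]
  have h1 : groupCohomology.map ((MonoidHom.id (K ≃ₐ[k] K)).comp (locGalToGlobal (q : ℕ) k τ'))
      ((Rep.resFunctor (locGalToGlobal (q : ℕ) k τ')).map (idProj k K v) ≫ ideleToLoc k q τ') n
      = groupCohomology.map ((MonoidHom.id (K ≃ₐ[k] K)).comp (locGalToGlobal (q : ℕ) k τ'))
          0 n :=
    groupCohomology.map_congr rfl
      (congrArg (fun f => f.hom.toLinearMap) (idProj_comp_ideleToLoc_of_not k K v q τ' h)) n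
  rw [h1]
  exact HomologicalComplex.homologyMap_zero _ _ _

/-- The invariant at `τ'` above `v` does not see the projector. -/
theorem jinvAt_map_idProj (v : FinPlace k) (q : Nat.Primes)
    (τ' : K →+* PadicAlgCl (q : ℕ)) (h : IsAt k K v q τ')
    (y : groupCohomology (ideleRep k K) 2) :
    jinvAt k q τ' ((groupCohomology.map (A := ideleRep k K) (MonoidHom.id (K ≃ₐ[k] K)) (idProj k K v) 2).hom y)
      = jinvAt k q τ' y :=
  congrArg (H66.inv (q : ℕ) (locExt (q : ℕ) k τ'))
    (congrArg (fun f => f.hom y) (map_idProj_map_ideleToLoc k K v q τ' h 2))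

/-- The invariant at `τ'` not above `v` kills the image of the projector. -/
theorem jinvAt_map_idProj_of_not (v : FinPlace k) (q : Nat.Primes)
    (τ' : K →+* PadicAlgCl (q : ℕ)) (h : ¬ IsAt k K v q τ')
    (y : groupCohomology (ideleRep k K) 2) :
    jinvAt k q τ' ((groupCohomology.map (A := ideleRep k K) (MonoidHom.id (K ≃ₐ[k] K)) (idProj k K v) 2).hom y)
      = 0 := by
  have h1 := congrArg (fun f => f.hom y) (map_idProj_map_ideleToLoc_of_not k K v q τ' h 2)
  have h2 : (groupCohomology.map (locGalToGlobal (q : ℕ) k τ') (ideleToLoc k q τ') 2).hom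
      ((groupCohomology.map (A := ideleRep k K) (MonoidHom.id (K ≃ₐ[k] K)) (idProj k K v) 2).hom y) = 0 := h1
  show (H66.inv (q : ℕ) (locExt (q : ℕ) k τ'))
    ((groupCohomology.map (locGalToGlobal (q : ℕ) k τ') (ideleToLoc k q τ') 2).hom
      ((groupCohomology.map (A := ideleRep k K) (MonoidHom.id (K ≃ₐ[k] K)) (idProj k K v) 2).hom y)) = 0
  rw [h2, map_zero]

/-- **`jinv v ∘ H²(E_v) = jinv v`.** -/
theorem jinv_map_idProj (v : FinPlace k) (y : groupCohomology (ideleRep k K) 2) :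
    jinv k K v ((groupCohomology.map (A := ideleRep k K) (MonoidHom.id (K ≃ₐ[k] K)) (idProj k K v) 2).hom y)
      = jinv k K v y :=
  jinvAt_map_idProj k K v v.1 (v.ext K) (isAt_ext k K v) y

/-- **`jinv v' ∘ H²(E_v) = 0` for `v' ≠ v`.** -/
theorem jinv_map_idProj_of_ne {v v' : FinPlace k} (h : v' ≠ v)
    (y : groupCohomology (ideleRep k K) 2) :
    jinv k K v' ((groupCohomology.map (A := ideleRep k K) (MonoidHom.id (K ≃ₐ[k] K)) (idProj k K v) 2).hom y)
      = 0 :=
  jinvAt_map_idProj_of_not k K v v'.1 (v'.ext K) (not_isAt_ext k K h) y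

/-- **(h1)** `e (σ • E_v a) = e (σ • a)` at an embedding above `v`. -/
theorem ideleToLoc_smul_idProj (v : FinPlace k) (q : Nat.Primes)
    (τ' : K →+* PadicAlgCl (q : ℕ)) (h : IsAt k K v q τ') (σ : K ≃ₐ[k] K) (a : ideleRep k K) :
    (ideleToLoc k q τ').hom ((ideleRep k K).ρ σ ((idProj k K v).hom a))
      = (ideleToLoc k q τ').hom ((ideleRep k K).ρ σ a) := by
  have h1 : (ideleRep k K).ρ σ ((idProj k K v).hom a)
      = (idProj k K v).hom ((ideleRep k K).ρ σ a) :=
    (Rep.hom_comm_apply (idProj k K v) σ a).symm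
  rw [h1]
  exact congrArg Additive.ofMul (ideleEvalHom_idProjHom_of_isAt k K v q τ' h _)

/-- The same statements for `H29.mapH2`. -/
theorem jinv_mapH2_idProj (v : FinPlace k) (y : groupCohomology (ideleRep k K) 2) :
    jinv k K v (mapH2 (idProj k K v) y) = jinv k K v y :=
  jinv_map_idProj k K v y

theorem jinv_mapH2_idProj_of_ne {v v' : FinPlace k} (h : v' ≠ v)
    (y : groupCohomology (ideleRep k K) 2) :
    jinv k K v' (mapH2 (idProj k K v) y) = 0 :=
  jinv_map_idProj_of_ne k K h y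

/-- Every embedding of `K` above `v` is `g ∘ (v.ext K) ∘ σ` with `g ∈ G_q`, `σ ∈ Gal(K/k)`. -/
theorem exists_of_isAt (v : FinPlace k) (τ : K →+* PadicAlgCl (v.1 : ℕ))
    (h : IsAt k K v v.1 τ) :
    ∃ (g : PadicAlgCl (v.1 : ℕ) ≃ₐ[ℚ_[(v.1 : ℕ)]] PadicAlgCl (v.1 : ℕ)) (σ : K ≃ₐ[k] K),
      τ = ((g : PadicAlgCl (v.1 : ℕ) →+* PadicAlgCl (v.1 : ℕ)).comp (v.ext K)).comp
        ((σ : K ≃+* K) : K →+* K) := by
  have h0 := isAt_ext k K v
  obtain ⟨q, w⟩ := v
  have h' : placeOf (q : ℕ) (τ.comp (algebraMap k K)) = w := isAt_mk_iff.mp h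
  have h0' : placeOf (q : ℕ) ((FinPlace.ext K (⟨q, w⟩ : FinPlace k)).comp (algebraMap k K)) = w :=
    isAt_mk_iff.mp h0
  have h1 : placeOf (q : ℕ) ((FinPlace.ext K (⟨q, w⟩ : FinPlace k)).comp (algebraMap k K))
      = placeOf (q : ℕ) (τ.comp (algebraMap k K)) := h0'.trans h'.symm
  obtain ⟨g, hg⟩ : ∃ g : PadicAlgCl (q : ℕ) ≃ₐ[ℚ_[(q : ℕ)]] PadicAlgCl (q : ℕ),
      τ.comp (algebraMap k K) = (g : PadicAlgCl (q : ℕ) →+* PadicAlgCl (q : ℕ)).comp
        ((FinPlace.ext K (⟨q, w⟩ : FinPlace k)).comp (algebraMap k K)) :=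
    Quotient.exact (s := placeSetoid (q : ℕ) k) h1
  obtain ⟨σ, hσ⟩ := exists_algEquiv_comp_eq (q : ℕ) (k := k)
    ((g : PadicAlgCl (q : ℕ) →+* PadicAlgCl (q : ℕ)).comp (FinPlace.ext K (⟨q, w⟩ : FinPlace k)))
    τ (by rw [RingHom.comp_assoc]; exact hg.symm)
  exact ⟨g, σ, hσ⟩

/-- **(h2)**, group form: an idele all of whose `Gal(K/k)`-translates have trivial component at
the chosen embedding above `v` is killed by the projector. -/
theorem idProjHom_eq_one (v : FinPlace k) (x : ideleGroup K)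
    (hx : ∀ σ : K ≃ₐ[k] K, ideleEvalHom k v.1 (v.ext K) (σ • x) = 1) :
    idProjHom k K v x = 1 := by
  obtain ⟨q₀, w⟩ := v
  refine Subtype.ext (funext fun q => Units.ext (Subtype.ext (funext fun τ => ?_)))
  show (slProj k K ⟨q₀, w⟩ q (((x : ∀ q : Nat.Primes, (semiLocal (q : ℕ) K)ˣ) q :
      (semiLocal (q : ℕ) K)ˣ) : semiLocal (q : ℕ) K) :
        (K →+* PadicAlgCl (q : ℕ)) → PadicAlgCl (q : ℕ)) τ = 1
  by_cases h : IsAt k K ⟨q₀, w⟩ q τ
  · rw [slProj_apply_of_isAt k K _ q _ h]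
    have hq : q = q₀ := h.fst_eq
    subst hq
    obtain ⟨g, σ, rfl⟩ := exists_of_isAt k K (⟨q, w⟩ : FinPlace k) τ h
    rw [RingHom.comp_assoc]
    have h1 := semiLocal_apply_comp
      (((x : ∀ q : Nat.Primes, (semiLocal (q : ℕ) K)ˣ) q : (semiLocal (q : ℕ) K)ˣ) :
        semiLocal (q : ℕ) K) g
      ((FinPlace.ext K (⟨q, w⟩ : FinPlace k)).comp ((σ : K ≃+* K) : K →+* K))
    rw [h1]
    have h2 := congrArg (fun u : (locExt (q : ℕ) k (FinPlace.ext K (⟨q, w⟩ : FinPlace k)))ˣ =>
      ((u : locExt (q : ℕ) k (FinPlace.ext K (⟨q, w⟩ : FinPlace k))) : PadicAlgCl (q : ℕ)))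
      (hx σ)
    have h3 : ((((x : ∀ q : Nat.Primes, (semiLocal (q : ℕ) K)ˣ) q : (semiLocal (q : ℕ) K)ˣ) :
        semiLocal (q : ℕ) K) : (K →+* PadicAlgCl (q : ℕ)) → PadicAlgCl (q : ℕ))
        ((FinPlace.ext K (⟨q, w⟩ : FinPlace k)).comp ((σ : K ≃+* K) : K →+* K)) = 1 := h2
    rw [h3, map_one]
  · exact slProj_apply_of_not_isAt k K _ q _ h

/-- **(h2)** `(∀ σ, e (σ • a) = 0) → E_v a = 0`. -/
theorem idProj_eq_zero (v : FinPlace k) (a : ideleRep k K)
    (ha : ∀ σ : K ≃ₐ[k] K, (ideleToLoc k v.1 (v.ext K)).hom ((ideleRep k K).ρ σ a) = 0) :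
    (idProj k K v).hom a = 0 :=
  congrArg Additive.ofMul (idProjHom_eq_one k K v (Additive.toMul (α := ideleGroup K) a)
    fun σ => congrArg Additive.toMul (ha σ))

end Eval

end Fermat.Agent.S55.H96
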