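/-
Program C (S55), package C8 / B4, leaf (J-SURJ), part (3), second half (helper96): GLUEING.

`K / k` normal, `v` a finite place of `k`, `τ' = v.ext K` the chosen embedding of `K` above `v`,
`K_w = locExt`, `k_v = locBase`, `φ = locGalToGlobal : Gal(K_w/k_v) →* Gal(K/k)`.
Every function `F : Gal(K/k) → K_wˣ` with `F (φ h * x) = h • F x` is `x ↦ e_τ' (x • a)` for an
idele `a` (supported at the rational prime below `v`, with components `1` at the embeddings not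
above `v`): `a (g ∘ τ' ∘ σ) := g (F σ)`, well defined because two presentations of the same
embedding differ by an element of the decomposition group (`H71.globToLoc`).

* `glue_wd`        : well-definedness;
* `glueIdele`, `ideleEvalHom_smul_glueIdele` : the idele and its components;
* `exists_idele_of_equivariant` : **(h3)** in the `Rep` form consumed by J-SURJ.
-/
import Fermat.Agent.S55.H96.IdeleProjector
import Fermat.Agent.S55.H71.LocGal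

set_option autoImplicit false

open CategoryTheory groupCohomology Rep

noncomputable section

namespace Fermat.Agent.S55.H96

open Fermat.Agent.S55.H88 Fermat.Agent.S55.H29

attribute [local instance] factOfPrimes

section WD

variable (k : Type) {K : Type} [Field k] [Field K] [Algebra k K] [Normal k K]
  (q : Nat.Primes) (τ' : K →+* PadicAlgCl (q : ℕ))

/-- **Well-definedness of the glueing.**  If `g ∘ τ' ∘ σ = g' ∘ τ' ∘ σ'` then
`g (F σ) = g' (F σ')` for every `F` with `F (φ h * x) = h (F x)`. -/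
theorem glue_wd (F : (K ≃ₐ[k] K) → (locExt (q : ℕ) k τ')ˣ)
    (hF : ∀ (h : locExt (q : ℕ) k τ' ≃ₐ[locBase (q : ℕ) k τ'] locExt (q : ℕ) k τ')
      (x : K ≃ₐ[k] K),
      ((F (locGalToGlobal (q : ℕ) k τ' h * x) : (locExt (q : ℕ) k τ')ˣ) : locExt (q : ℕ) k τ')
        = h ((F x : (locExt (q : ℕ) k τ')ˣ) : locExt (q : ℕ) k τ'))
    (g g' : PadicAlgCl (q : ℕ) ≃ₐ[ℚ_[(q : ℕ)]] PadicAlgCl (q : ℕ)) (σ σ' : K ≃ₐ[k] K)
    (hτ : ((g : PadicAlgCl (q : ℕ) →+* PadicAlgCl (q : ℕ)).comp τ').comp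
        ((σ : K ≃+* K) : K →+* K)
      = ((g' : PadicAlgCl (q : ℕ) →+* PadicAlgCl (q : ℕ)).comp τ').comp
        ((σ' : K ≃+* K) : K →+* K)) :
    g (((F σ : (locExt (q : ℕ) k τ')ˣ) : locExt (q : ℕ) k τ') : PadicAlgCl (q : ℕ))
      = g' (((F σ' : (locExt (q : ℕ) k τ')ˣ) : locExt (q : ℕ) k τ') : PadicAlgCl (q : ℕ)) := by
  -- `ρ = σ' σ⁻¹`, `γ = g'⁻¹ g`, `τ' ∘ ρ = γ ∘ τ'`
  have hγ : τ'.comp (((σ' * σ⁻¹ : K ≃ₐ[k] K) : K ≃+* K) : K →+* K)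
      = ((g'⁻¹ * g : PadicAlgCl (q : ℕ) ≃ₐ[ℚ_[(q : ℕ)]] PadicAlgCl (q : ℕ)) :
          PadicAlgCl (q : ℕ) →+* PadicAlgCl (q : ℕ)).comp τ' := by
    refine RingHom.ext fun x => ?_
    have h1 : g (τ' (σ (σ⁻¹ x))) = g' (τ' (σ' (σ⁻¹ x))) := RingHom.congr_fun hτ (σ⁻¹ x)
    have h2 : σ (σ⁻¹ x) = x := σ.apply_symm_apply x
    rw [h2] at h1
    show τ' (σ' (σ⁻¹ x)) = g'⁻¹ (g (τ' x))
    rw [h1]
    exact (g'.symm_apply_apply _).symm
  let h : locExt (q : ℕ) k τ' ≃ₐ[locBase (q : ℕ) k τ'] locExt (q : ℕ) k τ' :=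
    Fermat.Agent.S55.H71.globToLoc (q : ℕ) τ' (σ' * σ⁻¹) (g'⁻¹ * g) hγ
  have hcoe : ∀ y : locExt (q : ℕ) k τ',
      ((h y : locExt (q : ℕ) k τ') : PadicAlgCl (q : ℕ)) = g'⁻¹ (g (y : PadicAlgCl (q : ℕ))) :=
    fun y => rfl
  have hφ : locGalToGlobal (q : ℕ) k τ' h = σ' * σ⁻¹ := by
    refine AlgEquiv.ext fun x => τ'.injective ?_
    have h1 := congrArg (fun y : locExt (q : ℕ) k τ' => (y : PadicAlgCl (q : ℕ)))
      (locGalToGlobal_spec (q : ℕ) k τ' h x)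
    have h2 : g'⁻¹ (g (τ' x)) = τ' (locGalToGlobal (q : ℕ) k τ' h x) := h1
    rw [← h2]
    exact (RingHom.congr_fun hγ x).symm
  have h3 := hF h σ
  rw [hφ, inv_mul_cancel_right] at h3
  have h4 := congrArg (fun y : locExt (q : ℕ) k τ' => (y : PadicAlgCl (q : ℕ))) h3
  have h5 : (((F σ' : (locExt (q : ℕ) k τ')ˣ) : locExt (q : ℕ) k τ') : PadicAlgCl (q : ℕ))
      = g'⁻¹ (g (((F σ : (locExt (q : ℕ) k τ')ˣ) : locExt (q : ℕ) k τ') : PadicAlgCl (q : ℕ))) :=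
    h4
  rw [h5]
  exact (g'.apply_symm_apply _).symm

end WD

section Glue

variable (k K : Type) [Field k] [Field K] [Algebra k K] [Normal k K] (v : FinPlace k)

open Classical in
/-- The glued function on the embeddings of `K` at the prime below `v`. -/
def glueFun (F : (K ≃ₐ[k] K) → (locExt (v.1 : ℕ) k (v.ext K))ˣ)
    (τ : K →+* PadicAlgCl (v.1 : ℕ)) : PadicAlgCl (v.1 : ℕ) :=
  if h : IsAt k K v v.1 τ then
    (Classical.choose (exists_of_isAt k K v τ h))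
      (((F (Classical.choose (Classical.choose_spec (exists_of_isAt k K v τ h))) :
        (locExt (v.1 : ℕ) k (v.ext K))ˣ) : locExt (v.1 : ℕ) k (v.ext K)) : PadicAlgCl (v.1 : ℕ))
  else 1

variable {k K v}

theorem isAt_orbit (g : PadicAlgCl (v.1 : ℕ) ≃ₐ[ℚ_[(v.1 : ℕ)]] PadicAlgCl (v.1 : ℕ))
    (σ : K ≃ₐ[k] K) :
    IsAt k K v v.1 (((g : PadicAlgCl (v.1 : ℕ) →+* PadicAlgCl (v.1 : ℕ)).comp (v.ext K)).comp
      ((σ : K ≃+* K) : K →+* K)) :=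
  (isAt_comp_right v σ _).mpr ((isAt_comp_left v g _).mpr (isAt_ext k K v))

theorem glueFun_of_not (F : (K ≃ₐ[k] K) → (locExt (v.1 : ℕ) k (v.ext K))ˣ)
    {τ : K →+* PadicAlgCl (v.1 : ℕ)} (h : ¬ IsAt k K v v.1 τ) : glueFun k K v F τ = 1 := by
  unfold glueFun
  rw [dif_neg h]

theorem glueFun_orbit (F : (K ≃ₐ[k] K) → (locExt (v.1 : ℕ) k (v.ext K))ˣ)
    (hF : ∀ (h : locExt (v.1 : ℕ) k (v.ext K) ≃ₐ[locBase (v.1 : ℕ) k (v.ext K)]
        locExt (v.1 : ℕ) k (v.ext K)) (x : K ≃ₐ[k] K),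
      ((F (locGalToGlobal (v.1 : ℕ) k (v.ext K) h * x) : (locExt (v.1 : ℕ) k (v.ext K))ˣ) :
          locExt (v.1 : ℕ) k (v.ext K))
        = h ((F x : (locExt (v.1 : ℕ) k (v.ext K))ˣ) : locExt (v.1 : ℕ) k (v.ext K)))
    (g : PadicAlgCl (v.1 : ℕ) ≃ₐ[ℚ_[(v.1 : ℕ)]] PadicAlgCl (v.1 : ℕ)) (σ : K ≃ₐ[k] K) :
    glueFun k K v F (((g : PadicAlgCl (v.1 : ℕ) →+* PadicAlgCl (v.1 : ℕ)).comp (v.ext K)).comp
        ((σ : K ≃+* K) : K →+* K))
      = g (((F σ : (locExt (v.1 : ℕ) k (v.ext K))ˣ) : locExt (v.1 : ℕ) k (v.ext K)) :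
          PadicAlgCl (v.1 : ℕ)) := by
  have h := isAt_orbit (v := v) g σ
  unfold glueFun
  rw [dif_pos h]
  exact (glue_wd k v.1 (v.ext K) F hF g _ σ _
    (Classical.choose_spec (Classical.choose_spec (exists_of_isAt k K v _ h)))).symm

theorem glueFun_comp (F : (K ≃ₐ[k] K) → (locExt (v.1 : ℕ) k (v.ext K))ˣ)
    (hF : ∀ (h : locExt (v.1 : ℕ) k (v.ext K) ≃ₐ[locBase (v.1 : ℕ) k (v.ext K)]
        locExt (v.1 : ℕ) k (v.ext K)) (x : K ≃ₐ[k] K),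
      ((F (locGalToGlobal (v.1 : ℕ) k (v.ext K) h * x) : (locExt (v.1 : ℕ) k (v.ext K))ˣ) :
          locExt (v.1 : ℕ) k (v.ext K))
        = h ((F x : (locExt (v.1 : ℕ) k (v.ext K))ˣ) : locExt (v.1 : ℕ) k (v.ext K)))
    (g₁ : PadicAlgCl (v.1 : ℕ) ≃ₐ[ℚ_[(v.1 : ℕ)]] PadicAlgCl (v.1 : ℕ))
    (τ : K →+* PadicAlgCl (v.1 : ℕ)) :
    glueFun k K v F ((g₁ : PadicAlgCl (v.1 : ℕ) →+* PadicAlgCl (v.1 : ℕ)).comp τ)
      = g₁ (glueFun k K v F τ) := by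
  by_cases h : IsAt k K v v.1 τ
  · obtain ⟨g, σ, rfl⟩ := exists_of_isAt k K v τ h
    have e : (g₁ : PadicAlgCl (v.1 : ℕ) →+* PadicAlgCl (v.1 : ℕ)).comp
        (((g : PadicAlgCl (v.1 : ℕ) →+* PadicAlgCl (v.1 : ℕ)).comp (v.ext K)).comp
          ((σ : K ≃+* K) : K →+* K))
        = (((g₁ * g : PadicAlgCl (v.1 : ℕ) ≃ₐ[ℚ_[(v.1 : ℕ)]] PadicAlgCl (v.1 : ℕ)) :
            PadicAlgCl (v.1 : ℕ) →+* PadicAlgCl (v.1 : ℕ)).comp (v.ext K)).comp
          ((σ : K ≃+* K) : K →+* K) := rfl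
    rw [e, glueFun_orbit F hF, glueFun_orbit F hF]
    rfl
  · rw [glueFun_of_not F h,
      glueFun_of_not F (fun h' => h ((isAt_comp_left v g₁ τ).mp h')), map_one]

theorem glueFun_ne_zero (F : (K ≃ₐ[k] K) → (locExt (v.1 : ℕ) k (v.ext K))ˣ)
    (hF : ∀ (h : locExt (v.1 : ℕ) k (v.ext K) ≃ₐ[locBase (v.1 : ℕ) k (v.ext K)]
        locExt (v.1 : ℕ) k (v.ext K)) (x : K ≃ₐ[k] K),
      ((F (locGalToGlobal (v.1 : ℕ) k (v.ext K) h * x) : (locExt (v.1 : ℕ) k (v.ext K))ˣ) :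
          locExt (v.1 : ℕ) k (v.ext K))
        = h ((F x : (locExt (v.1 : ℕ) k (v.ext K))ˣ) : locExt (v.1 : ℕ) k (v.ext K)))
    (τ : K →+* PadicAlgCl (v.1 : ℕ)) : glueFun k K v F τ ≠ 0 := by
  by_cases h : IsAt k K v v.1 τ
  · obtain ⟨g, σ, rfl⟩ := exists_of_isAt k K v τ h
    rw [glueFun_orbit F hF]
    refine (map_ne_zero g).mpr ?_
    intro h0
    have h1 : ((F σ : (locExt (v.1 : ℕ) k (v.ext K))ˣ) : locExt (v.1 : ℕ) k (v.ext K)) = 0 :=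
      Subtype.ext h0
    exact (F σ).ne_zero h1
  · rw [glueFun_of_not F h]
    exact one_ne_zero

variable (k K v) in
/-- The glued unit of the semi-local algebra at the prime below `v`. -/
def glueUnit (F : (K ≃ₐ[k] K) → (locExt (v.1 : ℕ) k (v.ext K))ˣ)
    (hF : ∀ (h : locExt (v.1 : ℕ) k (v.ext K) ≃ₐ[locBase (v.1 : ℕ) k (v.ext K)]
        locExt (v.1 : ℕ) k (v.ext K)) (x : K ≃ₐ[k] K),
      ((F (locGalToGlobal (v.1 : ℕ) k (v.ext K) h * x) : (locExt (v.1 : ℕ) k (v.ext K))ˣ) :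
          locExt (v.1 : ℕ) k (v.ext K))
        = h ((F x : (locExt (v.1 : ℕ) k (v.ext K))ˣ) : locExt (v.1 : ℕ) k (v.ext K))) :
    (semiLocal (v.1 : ℕ) K)ˣ where
  val := ⟨glueFun k K v F, fun g τ => glueFun_comp F hF g τ⟩
  inv := ⟨fun τ => (glueFun k K v F τ)⁻¹, fun g τ => by
    show (glueFun k K v F ((g : PadicAlgCl (v.1 : ℕ) →+* PadicAlgCl (v.1 : ℕ)).comp τ))⁻¹
      = g ((glueFun k K v F τ)⁻¹)
    rw [glueFun_comp F hF, map_inv₀]⟩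
  val_inv := Subtype.ext (funext fun τ => mul_inv_cancel₀ (glueFun_ne_zero F hF τ))
  inv_val := Subtype.ext (funext fun τ => inv_mul_cancel₀ (glueFun_ne_zero F hF τ))

variable (k K v) in
/-- The glued idele: `glueUnit` at the prime below `v`, `1` at the other primes. -/
def glueIdele (F : (K ≃ₐ[k] K) → (locExt (v.1 : ℕ) k (v.ext K))ˣ)
    (hF : ∀ (h : locExt (v.1 : ℕ) k (v.ext K) ≃ₐ[locBase (v.1 : ℕ) k (v.ext K)]
        locExt (v.1 : ℕ) k (v.ext K)) (x : K ≃ₐ[k] K),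
      ((F (locGalToGlobal (v.1 : ℕ) k (v.ext K) h * x) : (locExt (v.1 : ℕ) k (v.ext K))ˣ) :
          locExt (v.1 : ℕ) k (v.ext K))
        = h ((F x : (locExt (v.1 : ℕ) k (v.ext K))ˣ) : locExt (v.1 : ℕ) k (v.ext K))) :
    ideleGroup K :=
  ⟨Pi.mulSingle v.1 (glueUnit k K v F hF),
    Set.Finite.subset (Set.finite_singleton v.1) fun q hq => by
      by_contra hne
      exact hq (by rw [Pi.mulSingle_eq_of_ne hne]; exact Subgroup.one_mem _)⟩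

/-- The components of the translates of the glued idele at the chosen embedding above `v`. -/
theorem ideleEvalHom_smul_glueIdele (F : (K ≃ₐ[k] K) → (locExt (v.1 : ℕ) k (v.ext K))ˣ)
    (hF : ∀ (h : locExt (v.1 : ℕ) k (v.ext K) ≃ₐ[locBase (v.1 : ℕ) k (v.ext K)]
        locExt (v.1 : ℕ) k (v.ext K)) (x : K ≃ₐ[k] K),
      ((F (locGalToGlobal (v.1 : ℕ) k (v.ext K) h * x) : (locExt (v.1 : ℕ) k (v.ext K))ˣ) :
          locExt (v.1 : ℕ) k (v.ext K))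
        = h ((F x : (locExt (v.1 : ℕ) k (v.ext K))ˣ) : locExt (v.1 : ℕ) k (v.ext K)))
    (σ : K ≃ₐ[k] K) :
    ideleEvalHom k v.1 (v.ext K) (σ • glueIdele k K v F hF) = F σ := by
  refine Units.ext (Subtype.ext ?_)
  have e : ((glueIdele k K v F hF : ideleGroup K) :
      ∀ q : Nat.Primes, (semiLocal (q : ℕ) K)ˣ) v.1 = glueUnit k K v F hF :=
    Pi.mulSingle_eq_same _ _
  show ((((glueIdele k K v F hF : ideleGroup K) :
      ∀ q : Nat.Primes, (semiLocal (q : ℕ) K)ˣ) v.1 : (semiLocal (v.1 : ℕ) K)ˣ) :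
        semiLocal (v.1 : ℕ) K).1 ((v.ext K).comp ((σ : K ≃+* K) : K →+* K))
    = (((F σ : (locExt (v.1 : ℕ) k (v.ext K))ˣ) : locExt (v.1 : ℕ) k (v.ext K)) :
        PadicAlgCl (v.1 : ℕ))
  rw [e]
  have h1 := glueFun_orbit F hF 1 σ
  exact h1

end Glue

section Rep

variable (k K : Type) [Field k] [Field K] [Algebra k K] [Normal k K] (v : FinPlace k)

/-- **(h3)** Every function `F : Gal(K/k) → K_wˣ` with `F (φ h * x) = h • F x` is
`x ↦ e (x • a)` for an idele `a`. -/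
theorem exists_idele_of_equivariant
    (F : (K ≃ₐ[k] K) →
      Rep.ofAlgebraAutOnUnits (locBase (v.1 : ℕ) k (v.ext K)) (locExt (v.1 : ℕ) k (v.ext K)))
    (hF : ∀ (h : locExt (v.1 : ℕ) k (v.ext K) ≃ₐ[locBase (v.1 : ℕ) k (v.ext K)]
        locExt (v.1 : ℕ) k (v.ext K)) (x : K ≃ₐ[k] K),
      F (locGalToGlobal (v.1 : ℕ) k (v.ext K) h * x)
        = (Rep.ofAlgebraAutOnUnits (locBase (v.1 : ℕ) k (v.ext K))
            (locExt (v.1 : ℕ) k (v.ext K))).ρ h (F x)) :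
    ∃ a : ideleRep k K, ∀ x : K ≃ₐ[k] K,
      F x = (ideleToLoc k v.1 (v.ext K)).hom ((ideleRep k K).ρ x a) := by
  let F' : (K ≃ₐ[k] K) → (locExt (v.1 : ℕ) k (v.ext K))ˣ := fun x =>
    Additive.toMul (α := (locExt (v.1 : ℕ) k (v.ext K))ˣ) (F x)
  have hF' : ∀ (h : locExt (v.1 : ℕ) k (v.ext K) ≃ₐ[locBase (v.1 : ℕ) k (v.ext K)]
        locExt (v.1 : ℕ) k (v.ext K)) (x : K ≃ₐ[k] K),
      ((F' (locGalToGlobal (v.1 : ℕ) k (v.ext K) h * x) : (locExt (v.1 : ℕ) k (v.ext K))ˣ) :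
          locExt (v.1 : ℕ) k (v.ext K))
        = h ((F' x : (locExt (v.1 : ℕ) k (v.ext K))ˣ) : locExt (v.1 : ℕ) k (v.ext K)) :=
    fun h x => congrArg (fun u : Rep.ofAlgebraAutOnUnits (locBase (v.1 : ℕ) k (v.ext K))
        (locExt (v.1 : ℕ) k (v.ext K)) =>
      ((Additive.toMul (α := (locExt (v.1 : ℕ) k (v.ext K))ˣ) u :
        (locExt (v.1 : ℕ) k (v.ext K))ˣ) : locExt (v.1 : ℕ) k (v.ext K))) (hF h x)
  refine ⟨Additive.ofMul (glueIdele k K v F' hF'), fun x => ?_⟩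
  exact congrArg Additive.ofMul (ideleEvalHom_smul_glueIdele F' hF' x).symm

end Rep

end Fermat.Agent.S55.H96
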